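import Fermat.Agent.S24.D5.H108Growth

/-!
# D5: basic properties of `J = E₄³ / Δ` and uniqueness of the polynomial

Mathlib-only (plus `H108Poly`, `H108Growth`).  Namespace `Fermat.Agent.S24.H108`.
-/

noncomputable section

open UpperHalfPlane ModularForm SlashInvariantForm SlashInvariantFormClass ModularFormClass
  CuspFormClass MatrixGroups OnePoint Filter EisensteinSeries Asymptotics

open scoped Topology Manifold Real

namespace Fermat.Agent.S24.H108

local notation "Δ" => ModularForm.discriminant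

/-- A level-one modular form tends to its zeroth `q`-expansion coefficient at `i∞`. -/
lemma levelOne_tendsto_coeff_zero {k : ℤ} (f : ModularForm 𝒮ℒ k) :
    Tendsto (f : ℍ → ℂ) atImInfty (𝓝 ((qExpansion 1 f).coeff 0)) := by
  have hper := SlashInvariantFormClass.periodic_comp_ofComplex f one_mem_strictPeriods_SL
  have hbd : IsBoundedAtImInfty (f : ℍ → ℂ) := ModularFormClass.bdd_at_infty f
  have han := analyticAt_cuspFunction_zero one_pos hper f.holo' hbd
  have hcomp : (cuspFunction 1 f ∘ fun τ : ℍ ↦ Function.Periodic.qParam 1 τ : ℍ → ℂ) = f := by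
    funext τ
    simpa using eq_cuspFunction τ one_ne_zero hper
  have h1 : Tendsto (f : ℍ → ℂ) atImInfty (𝓝 (cuspFunction 1 f 0)) := by
    simpa [hcomp] using han.continuousAt.tendsto.comp (qParam_tendsto_atImInfty one_pos)
  rwa [qExpansion_coeff_zero one_pos han hper, ← cuspFunction_apply_zero one_pos han hper]

lemma tendsto_E₄_atImInfty : Tendsto (E₄ : ℍ → ℂ) atImInfty (𝓝 1) := by
  simpa [E_qExpansion_coeff_zero (by norm_num : 3 ≤ 4) ⟨2, rfl⟩] using
    levelOne_tendsto_coeff_zero E₄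

lemma tendsto_discriminant_atImInfty : Tendsto (Δ : ℍ → ℂ) atImInfty (𝓝 0) :=
  discriminant_isZeroAtImInfty

/-- `‖J τ‖ → ∞` as `Im τ → ∞`. -/
lemma tendsto_norm_jFun_atImInfty : Tendsto (fun τ : ℍ => ‖jFun τ‖) atImInfty atTop := by
  have h1 : Tendsto (fun τ : ℍ => ‖E₄ τ ^ 3‖) atImInfty (𝓝 1) := by
    simpa using ((tendsto_E₄_atImInfty.pow 3).norm)
  have h2 : Tendsto (fun τ : ℍ => ‖Δ τ‖) atImInfty (𝓝[>] 0) := by
    rw [tendsto_nhdsWithin_iff]
    refine ⟨by simpa using tendsto_discriminant_atImInfty.norm, Eventually.of_forall fun τ => ?_⟩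
    exact norm_pos_iff.mpr (discriminant_ne_zero τ)
  have h3 : Tendsto (fun τ : ℍ => ‖Δ τ‖⁻¹) atImInfty atTop := h2.inv_tendsto_nhdsGT_zero
  have h4 := h3.atTop_mul_pos one_pos h1
  refine h4.congr fun τ => ?_
  rw [jFun_def, norm_div, div_eq_mul_inv, mul_comm]

lemma jFun_coe_eq_div : (jFun : ℍ → ℂ) = (E₄.pow 3 : ℍ → ℂ) / (CuspForm.discriminant : ℍ → ℂ) := by
  ext τ
  rw [Pi.div_apply, coe_pow, Pi.pow_apply, jFun_def]
  rfl

/-- `J` is weight-0 slash invariant under `SL(2,ℤ)`. -/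
lemma jFun_slash (γ : SL(2, ℤ)) : (jFun : ℍ → ℂ) ∣[(0 : ℤ)] γ = jFun := by
  have hγ : (γ : GL (Fin 2) ℝ) ∈ 𝒮ℒ := ⟨γ, rfl⟩
  have h := div_slash_SL2 ((3 : ℕ) * 4) 12 γ (E₄.pow 3 : ℍ → ℂ)
    (CuspForm.discriminant : ℍ → ℂ)
  have e1 : ((E₄.pow 3 : ModularForm 𝒮ℒ _) : ℍ → ℂ) ∣[((3 : ℕ) * 4 : ℤ)] γ = E₄.pow 3 := by
    rw [SL_slash]; exact slash_action_eqn (E₄.pow 3) _ hγ
  have e2 : (CuspForm.discriminant : ℍ → ℂ) ∣[(12 : ℤ)] γ = CuspForm.discriminant := by
    rw [SL_slash]; exact slash_action_eqn CuspForm.discriminant _ hγ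
  rw [e1, e2] at h
  rw [jFun_coe_eq_div]
  convert h using 2
  norm_num

/-- `J` is `SL(2,ℤ)`-invariant. -/
lemma jFun_smul (γ : SL(2, ℤ)) (τ : ℍ) : jFun (γ • τ) = jFun τ := by
  have h := congrFun (jFun_slash γ) τ
  rw [SL_slash_apply] at h
  simpa using h

/-- `J` is holomorphic on the upper half plane. -/
lemma mdifferentiable_jFun : MDiff jFun := by
  rw [jFun_coe_eq_div]
  exact (E₄.pow 3).holo'.div CuspForm.discriminant.holo' discriminant_ne_zero

/-- `J * Δ = E₄ ^ 3` is bounded at `i∞`. -/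
lemma isBoundedAtImInfty_jFun_mul_discriminant :
    IsBoundedAtImInfty (fun τ => jFun τ * Δ τ ^ 1) := by
  have h : IsBoundedAtImInfty ((E₄.pow 3 : ModularForm 𝒮ℒ _) : ℍ → ℂ) :=
    ModularFormClass.bdd_at_infty (E₄.pow 3)
  convert h using 1
  ext τ
  rw [pow_one, jFun_def, div_mul_cancel₀ _ (discriminant_ne_zero τ), coe_pow, Pi.pow_apply]

/-- The range of `J` is infinite. -/
lemma infinite_range_jFun : (Set.range jFun).Infinite := by
  intro hfin
  obtain ⟨M, hM⟩ := (hfin.image norm).bddAbove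
  obtain ⟨τ, hτ⟩ := (tendsto_norm_jFun_atImInfty.eventually (eventually_gt_atTop M)).exists
  exact absurd (hM ⟨jFun τ, ⟨τ, rfl⟩, rfl⟩) (not_le.mpr hτ)

/-- **D5d.** Uniqueness: a polynomial is determined by its values on the range of `J`. -/
theorem polynomial_eq_of_eval_jFun_eq (P Q : Polynomial ℂ)
    (h : ∀ τ : ℍ, P.eval (E₄ τ ^ 3 / Δ τ) = Q.eval (E₄ τ ^ 3 / Δ τ)) : P = Q := by
  refine Polynomial.eq_of_infinite_eval_eq P Q (infinite_range_jFun.mono ?_)
  rintro _ ⟨τ, rfl⟩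
  exact h τ

/-- Polynomials in `J` are `SL(2,ℤ)`-invariant. -/
lemma eval_jFun_smul (P : Polynomial ℂ) (γ : SL(2, ℤ)) (τ : ℍ) :
    P.eval (jFun (γ • τ)) = P.eval (jFun τ) := by
  rw [jFun_smul]

/-- Polynomials in `J` are holomorphic. -/
lemma mdifferentiable_eval_jFun (P : Polynomial ℂ) : MDiff (fun τ => P.eval (jFun τ)) := by
  induction P using Polynomial.induction_on' with
  | add p q hp hq =>
    simp only [Polynomial.eval_add]
    exact hp.add hq
  | monomial n a =>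
    simp only [Polynomial.eval_monomial]
    exact mdifferentiable_const.mul (mdifferentiable_jFun.pow n)

end Fermat.Agent.S24.H108
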